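import Fermat.Agent.JM.Local
import Fermat.Agent.JM27.Cls

set_option autoImplicit false

/-! S25 block M: the class of the coincidence locus. -/

noncomputable section

universe u

open CategoryTheory CategoryTheory.Limits AlgebraicGeometry TopologicalSpace
open Fermat.Agent.JCd Fermat.Agent.JMod Fermat.Agent.JM27

namespace Fermat.Agent.JM

variable {k : Type u} [Field k] {P C : Scheme.{u}} (c : C ⟶ Spec (CommRingCat.of k))

theorem uAt_of_gens [IsIntegral P] {p₁ p₂ : P ⟶ C} (hgen : ¬ Coin p₁ p₂ (genericPoint P))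
    {U V : P.Opens} {s : Γ(P, U)} {t : Γ(P, V)} {z : P} (hzU : z ∈ U) (hzV : z ∈ V)
    (hs : ∀ (w : P) (hw : w ∈ U), Gens p₁ p₂ w (P.presheaf.germ U w hw s))
    (ht : ∀ (w : P) (hw : w ∈ V), Gens p₁ p₂ w (P.presheaf.germ V w hw t)) :
    UAt z (gg U (genericPoint_mem hzU) s / gg V (genericPoint_mem hzV) t) := by
  have hs0 : gg U (genericPoint_mem hzU) s ≠ 0 := ((hs _ (genericPoint_mem hzU)).off hgen).ne_zero
  have ht0 : gg V (genericPoint_mem hzV) t ≠ 0 := ((ht _ (genericPoint_mem hzV)).off hgen).ne_zero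
  have e1 := germ_generic_eq hzU (genericPoint_mem hzU) s
  have e2 := germ_generic_eq hzV (genericPoint_mem hzV) t
  obtain ⟨a, ha⟩ := (hs z hzU).exists_mul (ht z hzV)
  obtain ⟨b, hb⟩ := (ht z hzV).exists_mul (hs z hzU)
  have hinj : Function.Injective (algebraMap (P.presheaf.stalk z) P.functionField) :=
    IsFractionRing.injective _ _
  have hz0 : P.presheaf.germ V z hzV t ≠ 0 := fun h => ht0 (by
    rw [h, map_zero] at e2
    exact e2.symm)
  have hab : b * a = 1 := by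
    have : (b * a) * P.presheaf.germ V z hzV t = 1 * P.presheaf.germ V z hzV t := by
      rw [mul_assoc, ← ha, ← hb, one_mul]
    exact mul_right_cancel₀ hz0 this
  refine ⟨⟨a, b, by rw [mul_comm]; exact hab, hab⟩, ?_⟩
  rw [eq_div_iff ht0]
  show algebraMap (P.presheaf.stalk z) P.functionField a * P.presheaf.germ V _ _ t =
    P.presheaf.germ U _ _ s
  rw [← e1, ← e2, ← map_mul, ← ha]

/-- the cocycle of the coincidence locus -/
theorem exists_lc [SmoothOfRelativeDimension 1 c] [C.IsSeparated] [IsIntegral P] (p₁ p₂ : P ⟶ C)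
    (hp : p₁ ≫ c = p₂ ≫ c) (hgen : ¬ Coin p₁ p₂ (genericPoint P)) :
    ∃ (L : LC P) (s : ∀ p, Γ(P, L.U p)),
      (∀ (p w : P) (hw : w ∈ L.U p), Gens p₁ p₂ w (P.presheaf.germ (L.U p) w hw (s p))) ∧
      ∀ p q, ores (inf_le_left : L.U p ⊓ L.U q ≤ L.U p) (s p) =
        (L.g p q : Γ(P, L.U p ⊓ L.U q)) * ores (inf_le_right : L.U p ⊓ L.U q ≤ L.U q) (s q) := by
  choose U hU s hs using exists_gens c p₁ p₂ hp
  have hη : ∀ p, genericPoint P ∈ U p := fun p => genericPoint_mem (hU p)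
  let D : CD P :=
    { U := U
      mem := hU
      f := fun p => gg (U p) (hη p) (s p)
      compat := fun x y z hx hy => uAt_of_gens hgen hx hy (hs x) (hs y)
      ne := fun p => ((hs p _ (hη p)).off hgen).ne_zero }
  refine ⟨toLC D, s, hs, fun p q => ?_⟩
  have h1 := gg_gU D p q
  refine gg_inj (W := U p ⊓ U q) ⟨hη p, hη q⟩ ?_
  have h2 : gg (U p ⊓ U q) ⟨hη p, hη q⟩ (gU D p q : Γ(P, U p ⊓ U q)) =
    gg (U p) (hη p) (s p) / gg (U q) (hη q) (s q) := h1
  have h3 : gg (U q) (hη q) (s q) ≠ 0 := D.ne q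
  refine Eq.trans (gg_ores _ _ _) ?_
  refine Eq.trans ?_ (map_mul _ _ _).symm
  refine Eq.trans ?_ (congrArg₂ (· * ·) h2 (gg_ores _ _ _)).symm
  exact (div_mul_cancel₀ _ h3).symm

end Fermat.Agent.JM

end
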