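import Fermat.Agent.JM.RatPt
import Fermat.Agent.JM.Delta
import Fermat.Agent.JM17.ExtH
import Fermat.Agent.JNa.GI

set_option autoImplicit false

/-! S25 block M: the classes of points generate `H1` of a curve over an algebraically closed
field. -/

noncomputable section

universe u

open CategoryTheory CategoryTheory.Limits AlgebraicGeometry TopologicalSpace
open AlgebraicGeometry.RelPicard NeronModelInfra
open Fermat.Agent.AVS Fermat.Agent.JCd Fermat.Agent.JMod Fermat.Agent.JM27

namespace Fermat.Agent.JM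

section

variable {P C Y : Scheme.{u}} {p₁ p₂ : P ⟶ C} {L : LC P} {s : ∀ p, Γ(P, L.U p)}

theorem gens_pb (hG : ∀ (p w : P) (hw : w ∈ L.U p), Gens p₁ p₂ w (P.presheaf.germ (L.U p) w hw (s p)))
    (φ : Y ⟶ P) (z w : Y) (hw : w ∈ φ ⁻¹ᵁ (L.U (φ z))) :
    Gens (φ ≫ p₁) (φ ≫ p₂) w
      (Y.presheaf.germ (φ ⁻¹ᵁ (L.U (φ z))) w hw (opb φ le_rfl (s (φ z)))) := by
  have h1 := (hG (φ z) (φ w) hw).comp φ
  have h0 := Scheme.Hom.germ_stalkMap_apply φ (L.U (φ z)) w hw (s (φ z))
  have h2 : opb φ le_rfl (s (φ z)) = φ.app (L.U (φ z)) (s (φ z)) := by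
    unfold opb
    rw [Scheme.Hom.app_eq_appLE]
  rw [h2, ← h0]
  exact h1

variable {K : Type u} [Field K] {f : Y ⟶ Spec (CommRingCat.of K)} {q : Y ⟶ C}
  [SmoothOfRelativeDimension 1 f] [IsIntegral Y]

theorem pbf_ne_zero_pt
    (hG : ∀ (p w : P) (hw : w ∈ L.U p), Gens p₁ p₂ w (P.presheaf.germ (L.U p) w hw (s p)))
    (hj : ∀ {Z : Scheme.{u}} (a b : Z ⟶ Y), a ≫ q = b ≫ q → a ≫ f = b ≫ f → a = b)
    (x : Pt f (RingHom.id K)) (φ : Y ⟶ P) (h₁ : φ ≫ p₁ = q) (h₂ : φ ≫ p₂ = f ≫ x.1 ≫ q) (z : Y) :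
    pbf φ L s z ≠ 0 := by
  have h3 := gens_pb hG φ z (genericPoint Y) (genericPoint_mem (L.mem (φ z)))
  rw [h₁, h₂] at h3
  exact (h3.off fun h => center_ne_generic x (eq_center_of_coin q hj x _ h).symm).ne_zero

theorem isPoint
    (hs : ∀ p q, ores (inf_le_left : L.U p ⊓ L.U q ≤ L.U p) (s p) =
      (L.g p q : Γ(P, L.U p ⊓ L.U q)) * ores (inf_le_right : L.U p ⊓ L.U q ≤ L.U q) (s q))
    (hG : ∀ (p w : P) (hw : w ∈ L.U p), Gens p₁ p₂ w (P.presheaf.germ (L.U p) w hw (s p)))
    (hj : ∀ {Z : Scheme.{u}} (a b : Z ⟶ Y), a ≫ q = b ≫ q → a ≫ f = b ≫ f → a = b)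
    (x : Pt f (RingHom.id K)) (φ : Y ⟶ P) (h₁ : φ ≫ p₁ = q) (h₂ : φ ≫ p₂ = f ≫ x.1 ≫ q) :
    (pbCD φ L s hs (pbf_ne_zero_pt hG hj x φ h₁ h₂)).IsPoint (center x) where
  away z hz := by
    have h3 := gens_pb hG φ z z (L.mem (φ z))
    rw [h₁, h₂] at h3
    obtain ⟨u, hu⟩ := h3.off fun h => hz (eq_center_of_coin q hj x _ h)
    refine ⟨u, ?_⟩
    rw [hu]
    exact germ_generic_eq (X := Y) (W := φ ⁻¹ᵁ (L.U (φ z))) (L.mem (φ z)) _ _
  at_ := by
    have h3 := gens_pb hG φ (center x) (center x) (L.mem (φ (center x)))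
    rw [h₁, h₂] at h3
    exact ⟨_, irreducible_of_gens q hj x _ h3,
      germ_generic_eq (X := Y) (W := φ ⁻¹ᵁ (L.U (φ (center x)))) (L.mem (φ (center x))) _ _⟩

end

section

variable {k : Type u} [Field k] [IsAlgClosed k] {C : Scheme.{u}} (c : C ⟶ Spec (CommRingCat.of k))
  [IsProper c] [SmoothOfRelativeDimension 1 c] [IsIntegral C]
  (ε : SchemeHomOver (𝟙 (Spec (CommRingCat.of k))) c)

omit [IsAlgClosed k] in
include ε in
theorem not_coin_generic [IsIntegral (pullback c c)] :
    ¬ Coin (pullback.fst c c) (pullback.snd c c) (genericPoint (pullback c c : Scheme.{u})) := by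
  intro h
  have hsep : C.IsSeparated := ⟨by
    have h1 : IsSeparated (c ≫ terminal.from (Spec (CommRingCat.of k))) := inferInstance
    rwa [terminal.comp_from] at h1⟩
  have hall : ∀ w : (pullback c c : Scheme.{u}), Coin (pullback.fst c c) (pullback.snd c c) w := by
    intro w
    have h1 := isClosed_coin (pullback.fst c c) (pullback.snd c c)
    have h2 : genericPoint (pullback c c : Scheme.{u}) ⤳ w :=
      (genericPoint_spec (pullback c c : Scheme.{u})).specializes trivial
    exact h2.mem_closed h1 h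
  let e : C ⟶ pullback c c := pullback.lift (𝟙 C) (c ≫ ε.1) (by
    rw [Category.assoc, ε.2, Category.comp_id, Category.id_comp])
  have h3 := (hall (e (genericPoint C))).eq
  rw [← Scheme.Hom.comp_apply, ← Scheme.Hom.comp_apply, pullback.lift_fst, pullback.lift_snd,
    Scheme.Hom.comp_apply] at h3
  have h4 : genericPoint C = ε.1 (c (genericPoint C)) := h3
  let x : Pt c (RingHom.id k) := ⟨ε.1, ε.2.trans (Spec.map_id _).symm⟩
  apply center_ne_generic x
  rw [h4]
  exact congrArg ε.1 (Subsingleton.elim (α := PrimeSpectrum k) _ _)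

include ε in
/-- **generation by points** -/
theorem exists_delta_gen : ∃ L : LC (pullback c c), ∀ (K : Type u) [Field K] [IsAlgClosed K]
    (s : Spec (CommRingCat.of K) ⟶ Spec (CommRingCat.of k)) (h : H1 (pullback c s)),
    h ∈ Subgroup.closure (Set.range fun y : SchemeHomOver s c =>
      H1.map (pullback.lift (pullback.fst c s) (pullback.snd c s ≫ y.1) (by
        rw [Category.assoc, y.2, pullback.condition]) : pullback c s ⟶ pullback c c) (H1.mk L)) := by
  have hint : IsIntegral (pullback c c) := JNa.isIntegral_pullback c c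
  have hsep : C.IsSeparated := ⟨by
    have h1 : IsSeparated (c ≫ terminal.from (Spec (CommRingCat.of k))) := inferInstance
    rwa [terminal.comp_from] at h1⟩
  obtain ⟨L, σ, hG, hσ⟩ := exists_lc c (pullback.fst c c) (pullback.snd c c) pullback.condition
    (not_coin_generic c ε)
  refine ⟨L, fun K _ _ s h => ?_⟩
  have hY : IsIntegral (pullback c s) := JNa.isIntegral_pullback c s
  have hbc : MorphismProperty.IsStableUnderBaseChange (@SmoothOfRelativeDimension.{u} 1) :=
    smoothOfRelativeDimension_isStableUnderBaseChange 1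
  have hsm : SmoothOfRelativeDimension 1 (pullback.snd c s) :=
    hbc.of_isPullback (IsPullback.of_hasPullback c s) inferInstance
  have hc : CompactSpace (pullback c s : Scheme.{u}) :=
    QuasiCompact.compactSpace_of_compactSpace (pullback.snd c s)
  obtain ⟨D, rfl⟩ := cls_surj h
  refine mem_closure_of_points (pullback.snd c s) cls cls_mul cls_zpow (fun D hD => cls_one hD) _
    (fun ξ hξ => ?_) D
  let x₀ := pointOfClosedPoint (pullback.snd c s) ξ hξ
  let x : Pt (pullback.snd c s) (RingHom.id K) :=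
    ⟨x₀, (pointOfClosedPoint_comp (pullback.snd c s) ξ hξ).trans (Spec.map_id _).symm⟩
  have hxξ : center x = ξ := pointOfClosedPoint_apply (pullback.snd c s) ξ hξ _
  let y : SchemeHomOver s c := ⟨x₀ ≫ pullback.fst c s, by
    rw [Category.assoc, pullback.condition, ← Category.assoc, pointOfClosedPoint_comp,
      Category.id_comp]⟩
  let φ : pullback c s ⟶ pullback c c := pullback.lift (pullback.fst c s)
    (pullback.snd c s ≫ y.1) (by rw [Category.assoc, y.2, pullback.condition])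
  have h₁ : φ ≫ pullback.fst c c = pullback.fst c s := pullback.lift_fst _ _ _
  have h₂ : φ ≫ pullback.snd c c = pullback.snd c s ≫ x.1 ≫ pullback.fst c s :=
    pullback.lift_snd _ _ _
  have hj : ∀ {Z : Scheme.{u}} (a b : Z ⟶ pullback c s),
      a ≫ pullback.fst c s = b ≫ pullback.fst c s →
      a ≫ pullback.snd c s = b ≫ pullback.snd c s → a = b := fun a b h1 h2 =>
    pullback.hom_ext h1 h2
  refine ⟨pbCD φ L σ hσ (pbf_ne_zero_pt hG hj x φ h₁ h₂), ?_, ?_⟩
  · have := isPoint hσ hG hj x φ h₁ h₂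
    rwa [hxξ] at this
  · rw [← map_mk_eq_cls φ L σ hσ]
    exact Subgroup.subset_closure ⟨y, rfl⟩

end

end Fermat.Agent.JM

end
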