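import Fermat.Agent.JCd.Reg

set_option autoImplicit false

/-! S25 block M: Cartier data on an integral scheme. -/

noncomputable section

universe u

open CategoryTheory CategoryTheory.Limits AlgebraicGeometry TopologicalSpace
open Fermat.Agent.JCd

namespace Fermat.Agent.JM

variable {X : Scheme.{u}} [IsIntegral X]

/-- the rational function `r` is a unit at `z` -/
def UAt (z : X) (r : X.functionField) : Prop :=
  ∃ u : (X.presheaf.stalk z)ˣ, algebraMap (X.presheaf.stalk z) X.functionField u = r

theorem UAt.one (z : X) : UAt z (1 : X.functionField) := ⟨1, by simp⟩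

theorem UAt.mul {z : X} {r s : X.functionField} (hr : UAt z r) (hs : UAt z s) :
    UAt z (r * s) := by
  obtain ⟨u, rfl⟩ := hr
  obtain ⟨v, rfl⟩ := hs
  exact ⟨u * v, by simp⟩

theorem UAt.inv {z : X} {r : X.functionField} (hr : UAt z r) : UAt z r⁻¹ := by
  obtain ⟨u, rfl⟩ := hr
  refine ⟨u⁻¹, ?_⟩
  refine eq_inv_of_mul_eq_one_left ?_
  rw [← map_mul, Units.inv_mul, map_one]

theorem UAt.div {z : X} {r s : X.functionField} (hr : UAt z r) (hs : UAt z s) :
    UAt z (r / s) := by
  rw [div_eq_mul_inv]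
  exact hr.mul hs.inv

theorem UAt.ne_zero {z : X} {r : X.functionField} (hr : UAt z r) : r ≠ 0 := by
  obtain ⟨u, rfl⟩ := hr
  exact (u.isUnit.map (algebraMap (X.presheaf.stalk z) X.functionField)).ne_zero

theorem UAt.pow {z : X} {r : X.functionField} (hr : UAt z r) (n : ℕ) : UAt z (r ^ n) := by
  obtain ⟨u, rfl⟩ := hr
  exact ⟨u ^ n, by simp⟩

theorem UAt.zpow {z : X} {r : X.functionField} (hr : UAt z r) (n : ℤ) : UAt z (r ^ n) := by
  cases n with
  | ofNat n => simpa using hr.pow n
  | negSucc n => rw [zpow_negSucc]; exact (hr.pow _).inv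

theorem uAt_germ {W : X.Opens} {z : X} (hz : z ∈ W) (u : Γ(X, W)ˣ) :
    UAt z (X.presheaf.germ W (genericPoint X) (genericPoint_mem hz) u) :=
  ⟨Units.map (X.presheaf.germ W z hz).hom.toMonoidHom u, germ_generic_eq hz _ _⟩

theorem germ_gen_inj {W : X.Opens} (h : genericPoint X ∈ W) {s t : Γ(X, W)}
    (e : X.presheaf.germ W (genericPoint X) h s = X.presheaf.germ W (genericPoint X) h t) :
    s = t := germ_injective_of_isIntegral X (genericPoint X) h e

/-- a rational function regular at all points of `W` is a section over `W` -/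
theorem exists_sec (W : X.Opens) (hη : genericPoint X ∈ W) (r : X.functionField)
    (h : ∀ z ∈ W, ∃ a : X.presheaf.stalk z,
      algebraMap (X.presheaf.stalk z) X.functionField a = r) :
    ∃ s : Γ(X, W), X.presheaf.germ W (genericPoint X) hη s = r := by
  have hW : W ≤ regOpen r := fun z hz => (mem_regOpen_iff r z).mpr (h z hz)
  obtain ⟨s, hs⟩ := exists_regSec r (hW hη)
  refine ⟨X.presheaf.map (homOfLE hW).op s, ?_⟩
  exact (X.presheaf.germ_res_apply (homOfLE hW) (genericPoint X) hη s).trans hs

/-- a rational function which is a unit at all points of `W` is a unit section over `W` -/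
theorem exists_unit (W : X.Opens) (hη : genericPoint X ∈ W) (r : X.functionField)
    (h : ∀ z ∈ W, UAt z r) :
    ∃ u : Γ(X, W)ˣ, X.presheaf.germ W (genericPoint X) hη u = r := by
  obtain ⟨s, hs⟩ := exists_sec W hη r fun z hz => by
    obtain ⟨u, hu⟩ := h z hz
    exact ⟨u, hu⟩
  obtain ⟨t, ht⟩ := exists_sec W hη r⁻¹ fun z hz => by
    obtain ⟨u, hu⟩ := (h z hz).inv
    exact ⟨u, hu⟩
  have h1 : s * t = 1 := by
    apply germ_gen_inj hη
    rw [map_mul, hs, ht, map_one]
    exact mul_inv_cancel₀ (G₀ := X.functionField) (h _ hη).ne_zero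
  exact ⟨⟨s, t, h1, by rw [mul_comm]; exact h1⟩, hs⟩

theorem uAt_generic {r : X.functionField} (hr : r ≠ 0) : UAt (genericPoint X) r := by
  let φ : X.functionField →+* X.functionField :=
    @algebraMap (X.presheaf.stalk (genericPoint X)) X.functionField _ _
      (stalkFunctionFieldAlgebra X (genericPoint X))
  have h1 : ∀ x : X.functionField, φ x = x := by
    intro x
    obtain ⟨W, hW, s, hs⟩ := X.presheaf.exists_germ_eq x
    have h3 := germ_generic_eq (X := X) (W := W) (ξ := genericPoint X) hW hW s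
    rw [← hs]
    exact h3
  exact ⟨⟨(r : X.functionField), (r⁻¹ : X.functionField),
    mul_inv_cancel₀ (G₀ := X.functionField) hr, inv_mul_cancel₀ (G₀ := X.functionField) hr⟩, h1 r⟩

variable (X) in
/-- Cartier data -/
structure CD where
  U : X → X.Opens
  mem : ∀ x, x ∈ U x
  f : X → X.functionField
  compat : ∀ x y z, z ∈ U x → z ∈ U y → UAt z (f x / f y)
  ne : ∀ x, f x ≠ 0

namespace CD

/-- product -/
def mul (D E : CD X) : CD X where
  U x := D.U x ⊓ E.U x
  mem x := ⟨D.mem x, E.mem x⟩
  f x := D.f x * E.f x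
  compat x y z hx hy := by
    rw [mul_div_mul_comm]
    exact (D.compat x y z hx.1 hy.1).mul (E.compat x y z hx.2 hy.2)
  ne x := mul_ne_zero (D.ne x) (E.ne x)

/-- powers -/
def zpow (D : CD X) (n : ℤ) : CD X where
  U := D.U
  mem := D.mem
  f x := D.f x ^ n
  compat x y z hx hy := by
    rw [← div_zpow]
    exact (D.compat x y z hx hy).zpow n
  ne x := zpow_ne_zero n (D.ne x)

/-- the support -/
def supp (D : CD X) : Set X := {z | ¬ UAt z (D.f z)}

theorem uAt_iff (D : CD X) {x z : X} (hz : z ∈ D.U x) : UAt z (D.f x) ↔ UAt z (D.f z) := by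
  constructor
  · intro h
    have := (D.compat z x z (D.mem z) hz).mul h
    rwa [div_mul_cancel₀ _ (D.ne x)] at this
  · intro h
    have := (D.compat x z z hz (D.mem z)).mul h
    rwa [div_mul_cancel₀ _ (D.ne z)] at this

end CD

/-- the set of points where `r` is a unit contains an open nonempty set -/
theorem exists_open_uAt {r : X.functionField} (hr : r ≠ 0) :
    ∃ W : X.Opens, genericPoint X ∈ W ∧ ∀ z ∈ W, UAt z r := by
  obtain ⟨U, -, f', hU, hf, hu⟩ := exists_isUnit_germ_eq X r hr
  obtain ⟨z₀⟩ := hU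
  refine ⟨U, genericPoint_mem z₀.2, fun z hz => ?_⟩
  obtain ⟨u, rfl⟩ := hu
  have := uAt_germ hz u
  rwa [show X.presheaf.germ U (genericPoint X) (genericPoint_mem hz) (u : Γ(X, U)) = r from hf]
    at this

end Fermat.Agent.JM

end
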