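import Mathlib

set_option autoImplicit false

/-! S25 block M: local equation of the diagonal of a smooth curve. -/

open TensorProduct KaehlerDifferential Polynomial

namespace Fermat.Agent.JM

section

variable {R S : Type*} [CommRing R] [CommRing S] [Algebra R S]

/-- If `Ω` is free of rank one, then at a prime `q` one finds `x` and `c ∉ q` with
`c • Ω ⊆ S • dx`. -/
theorem exists_D_generates (φ : Ω[S⁄R] ≃ₗ[S] S) (q : Ideal S) [hq : q.IsPrime] :
    ∃ (x c : S), c ∉ q ∧ ∀ ω : Ω[S⁄R], ∃ a : S, c • ω = a • D R S x := by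
  by_contra hcon
  have hall : ∀ x : S, φ (D R S x) ∈ q := by
    intro x
    by_contra hx
    exact hcon ⟨x, φ (D R S x), hx, fun ω => ⟨φ ω, φ.injective (by
      rw [map_smul, map_smul, smul_eq_mul, smul_eq_mul, mul_comm])⟩⟩
  have h1 : ∀ ω : Ω[S⁄R], φ ω ∈ q := by
    intro ω
    have hω : ω ∈ Submodule.span S (Set.range (D R S)) := by
      rw [span_range_derivation]; trivial
    induction hω using Submodule.span_induction with
    | mem y hy => obtain ⟨x, rfl⟩ := hy; exact hall x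
    | zero => rw [map_zero]; exact q.zero_mem
    | add a b _ _ ha hb => rw [map_add]; exact q.add_mem ha hb
    | smul a b _ hb => rw [map_smul]; exact q.mul_mem_left a hb
  exact hq.ne_top ((Ideal.eq_top_iff_one q).mpr (by
    have := h1 (φ.symm 1)
    rwa [LinearEquiv.apply_symm_apply] at this))

/-- local equation of the diagonal -/
theorem exists_local_eq [Algebra.EssFiniteType R S] (φ : Ω[S⁄R] ≃ₗ[S] S) (q : Ideal S)
    [hq : q.IsPrime] :
    ∃ (x : S) (e : S ⊗[R] S), Algebra.TensorProduct.lmul' R e ∉ q ∧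
      ∀ z ∈ KaehlerDifferential.ideal R S,
        e * z ∈ Ideal.span {(1 : S) ⊗ₜ[R] x - x ⊗ₜ[R] (1 : S)} := by
  classical
  obtain ⟨x, c, hc, hcx⟩ := exists_D_generates φ q
  set I := KaehlerDifferential.ideal R S with hI
  set δ : S ⊗[R] S := (1 : S) ⊗ₜ[R] x - x ⊗ₜ[R] (1 : S) with hδ
  have hδI : δ ∈ I := one_smul_sub_smul_one_mem_ideal R x
  have step : ∀ z ∈ I, ∃ a : S ⊗[R] S, (c ⊗ₜ[R] (1 : S)) * z - a * δ ∈ I ^ 2 := by
    intro z hz
    obtain ⟨a, ha⟩ := hcx (fromIdeal R S ⟨z, hz⟩)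
    refine ⟨a ⊗ₜ[R] (1 : S), ?_⟩
    have h1 : I.toCotangent ((c ⊗ₜ[R] (1 : S)) • ⟨z, hz⟩) =
        I.toCotangent ((a ⊗ₜ[R] (1 : S)) • ⟨δ, hδI⟩) := by
      rw [map_smul, map_smul]
      have e1 : (c ⊗ₜ[R] (1 : S)) • fromIdeal R S ⟨z, hz⟩ = c • fromIdeal R S ⟨z, hz⟩ :=
        algebraMap_smul (S ⊗[R] S) c (fromIdeal R S ⟨z, hz⟩)
      have e2 : (a ⊗ₜ[R] (1 : S)) • D R S x = a • D R S x :=
        algebraMap_smul (S ⊗[R] S) a (D R S x)
      exact e1.trans (ha.trans e2.symm)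
    rw [Ideal.toCotangent_eq] at h1
    exact h1
  have hfin : Module.Finite (S ⊗[R] S) I := Module.Finite.iff_fg.mpr (ideal_fg R S)
  set J : Submodule (S ⊗[R] S) I := Submodule.comap I.subtype (Ideal.span {δ}) with hJ
  let f : Module.End (S ⊗[R] S) (I ⧸ J) := algebraMap (S ⊗[R] S) _ (c ⊗ₜ[R] (1 : S))
  have hf : LinearMap.range f ≤ I • (⊤ : Submodule (S ⊗[R] S) (I ⧸ J)) := by
    rintro _ ⟨m, rfl⟩
    obtain ⟨⟨z, hz⟩, rfl⟩ := Submodule.mkQ_surjective J m
    obtain ⟨a, ha⟩ := step z hz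
    have hw : (⟨(c ⊗ₜ[R] (1 : S)) * z - a * δ, Ideal.pow_le_self two_ne_zero ha⟩ : I) ∈
        I • (⊤ : Submodule (S ⊗[R] S) I) := by
      have h2 : ((c ⊗ₜ[R] (1 : S)) * z - a * δ) ∈ (I • (⊤ : Submodule (S ⊗[R] S) I)).map I.subtype := by
        rw [Submodule.map_smul'', Submodule.map_top, Submodule.range_subtype, smul_eq_mul,
          ← pow_two]
        exact ha
      obtain ⟨y, hy, hy'⟩ := h2
      have : y = ⟨(c ⊗ₜ[R] (1 : S)) * z - a * δ, Ideal.pow_le_self two_ne_zero ha⟩ :=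
        Subtype.ext hy'
      rwa [this] at hy
    have h3 : f (J.mkQ ⟨z, hz⟩) = J.mkQ ⟨(c ⊗ₜ[R] (1 : S)) * z - a * δ, Ideal.pow_le_self two_ne_zero ha⟩ := by
      show (c ⊗ₜ[R] (1 : S)) • J.mkQ ⟨z, hz⟩ = _
      rw [← map_smul, ← sub_eq_zero, ← map_sub, ← LinearMap.mem_ker, Submodule.ker_mkQ]
      show (c ⊗ₜ[R] (1 : S)) * z - ((c ⊗ₜ[R] (1 : S)) * z - a * δ) ∈ Ideal.span {δ}
      rw [sub_sub_cancel]
      exact Ideal.mul_mem_left _ _ (Ideal.mem_span_singleton_self δ)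
    rw [h3]
    have h4 : J.mkQ ⟨(c ⊗ₜ[R] (1 : S)) * z - a * δ, Ideal.pow_le_self two_ne_zero ha⟩ ∈
        (I • (⊤ : Submodule (S ⊗[R] S) I)).map J.mkQ := Submodule.mem_map_of_mem hw
    rw [Submodule.map_smul''] at h4
    exact Submodule.smul_mono le_rfl le_top h4
  obtain ⟨p, hpm, -, hpc, hp0⟩ :=
    LinearMap.exists_monic_and_natDegree_eq_and_coeff_mem_pow_and_aeval_eq_zero (S ⊗[R] S) f I hf
  refine ⟨x, p.eval (c ⊗ₜ[R] (1 : S)), ?_, ?_⟩
  · have h5 : Algebra.TensorProduct.lmul' R (p.eval (c ⊗ₜ[R] (1 : S))) = c ^ p.natDegree := by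
      have h6 : Algebra.TensorProduct.lmul' R (p.eval (c ⊗ₜ[R] (1 : S))) =
          (p.map (Algebra.TensorProduct.lmul' R (S := S)).toRingHom).eval c := by
        rw [Polynomial.eval_map, Polynomial.eval₂_eq_sum_range, Polynomial.eval_eq_sum_range,
          map_sum]
        refine Finset.sum_congr rfl fun i _ => ?_
        rw [map_mul, map_pow]
        congr 2
        simp
      rw [h6]
      have h7 : p.map (Algebra.TensorProduct.lmul' R (S := S)).toRingHom = X ^ p.natDegree := by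
        ext n
        rw [coeff_map, coeff_X_pow]
        split_ifs with hn
        · rw [hn, hpm.coeff_natDegree, map_one]
        · rcases lt_or_gt_of_ne hn with h | h
          · have h8 := hpc n
            have h9 : p.coeff n ∈ I := Ideal.pow_le_self (by omega) h8
            exact h9
          · rw [coeff_eq_zero_of_natDegree_lt h, map_zero]
      rw [h7, eval_pow, eval_X]
    rw [h5]
    exact fun h => hc (hq.mem_of_pow_mem _ h)
  · intro z hz
    have h10 : (Polynomial.aeval f p) (J.mkQ ⟨z, hz⟩) = 0 := by rw [hp0]; rfl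
    have h11 : Polynomial.aeval f p = algebraMap (S ⊗[R] S) (Module.End (S ⊗[R] S) (I ⧸ J))
        (p.eval (c ⊗ₜ[R] (1 : S))) := by
      show Polynomial.aeval (algebraMap (S ⊗[R] S) (Module.End (S ⊗[R] S) (I ⧸ J))
        (c ⊗ₜ[R] (1 : S))) p = _
      rw [Polynomial.aeval_algebraMap_apply, Polynomial.coe_aeval_eq_eval]
    rw [h11] at h10
    have h12 : J.mkQ ((p.eval (c ⊗ₜ[R] (1 : S))) • ⟨z, hz⟩) = 0 := by
      rw [map_smul]; exact h10
    rw [← LinearMap.mem_ker, Submodule.ker_mkQ] at h12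
    exact h12

end

end Fermat.Agent.JM
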