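import Fermat.Agent.AVC.Final
import Fermat.Agent.JM.Diag

set_option autoImplicit false

/-! S25 block M: local equations of the coincidence locus of two maps to a smooth curve. -/

noncomputable section

universe u

open CategoryTheory CategoryTheory.Limits AlgebraicGeometry TopologicalSpace
open Fermat.Agent.AVS TensorProduct

namespace Fermat.Agent.JM

variable {P C : Scheme.{u}}

/-- germ at `v` of the pull-back of a section. -/
def pg (p : P ⟶ C) (v : P) (W : C.Opens) (h : p v ∈ W) : Γ(C, W) →+* P.presheaf.stalk v :=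
  (C.presheaf.germ W (p v) h ≫ p.stalkMap v).hom

theorem pg_apply (p : P ⟶ C) (v : P) (W : C.Opens) (h : p v ∈ W) (a : Γ(C, W)) :
    pg p v W h a = p.stalkMap v (C.presheaf.germ W (p v) h a) := rfl

theorem pg_eq_germ (p : P ⟶ C) (v : P) (W : C.Opens) (h : p v ∈ W) (a : Γ(C, W)) :
    pg p v W h a = P.presheaf.germ (p ⁻¹ᵁ W) v h (p.app W a) :=
  Scheme.Hom.germ_stalkMap_apply p W v h a

theorem pg_res (p : P ⟶ C) (v : P) {W W' : C.Opens} (i : W' ⟶ W) (h : p v ∈ W) (h' : p v ∈ W')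
    (a : Γ(C, W)) : pg p v W' h' (C.presheaf.map i.op a) = pg p v W h a := by
  rw [pg_apply, pg_apply]
  congr 1
  exact C.presheaf.germ_res_apply i (p v) h' a

theorem pg_comp {Y : Scheme.{u}} (φ : Y ⟶ P) (p : P ⟶ C) (z : Y) (W : C.Opens)
    (h : p (φ z) ∈ W) (h' : (φ ≫ p) z ∈ W) (a : Γ(C, W)) :
    pg (φ ≫ p) z W h' a = φ.stalkMap z (pg p (φ z) W h a) := by
  rw [pg_eq_germ, pg_eq_germ]
  refine Eq.trans ?_ (Scheme.Hom.germ_stalkMap_apply φ (p ⁻¹ᵁ W) z h (p.app W a)).symm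
  rfl

theorem specMap_pg (p : P ⟶ C) (v : P) {W : C.Opens} (hW : IsAffineOpen W) (h : p v ∈ W) :
    Spec.map (CommRingCat.ofHom (pg p v W h)) ≫ hW.fromSpec = P.fromSpecStalk v ≫ p := by
  rw [← Scheme.SpecMap_stalkMap_fromSpecStalk, ← hW.fromSpecStalk_eq_fromSpecStalk h,
    IsAffineOpen.fromSpecStalk, ← Spec.map_comp_assoc]
  rfl

theorem eq_iff_pg (p₁ p₂ : P ⟶ C) (v : P) {W : C.Opens} (hW : IsAffineOpen W) (h₁ : p₁ v ∈ W)
    (h₂ : p₂ v ∈ W) {R : CommRingCat.{u}} (q : P.presheaf.stalk v ⟶ R) :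
    Spec.map q ≫ P.fromSpecStalk v ≫ p₁ = Spec.map q ≫ P.fromSpecStalk v ≫ p₂ ↔
      ∀ a, q (pg p₁ v W h₁ a) = q (pg p₂ v W h₂ a) := by
  rw [← specMap_pg p₁ v hW h₁, ← specMap_pg p₂ v hW h₂, ← Spec.map_comp_assoc,
    ← Spec.map_comp_assoc]
  have hmono : Mono hW.fromSpec := inferInstance
  rw [cancel_mono, Spec.map_inj]
  constructor
  · intro e a
    exact congrArg (fun g => g.hom a) e
  · intro e
    ext a
    exact e a

/-- the two maps agree at the point `v` -/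
def Coin (p₁ p₂ : P ⟶ C) (v : P) : Prop :=
  P.fromSpecResidueField v ≫ p₁ = P.fromSpecResidueField v ≫ p₂

theorem Coin.eq {p₁ p₂ : P ⟶ C} {v : P} (h : Coin p₁ p₂ v) : p₁ v = p₂ v := by
  let x : Spec (P.residueField v) := IsLocalRing.closedPoint (P.residueField v)
  have e (p : P ⟶ C) : (P.fromSpecResidueField v ≫ p) x = p v := by
    rw [Scheme.Hom.comp_apply, Scheme.fromSpecResidueField_apply]
  exact (e p₁).symm.trans ((congrArg (fun g : Spec (P.residueField v) ⟶ C => g x) h).trans (e p₂))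

theorem coin_iff (p₁ p₂ : P ⟶ C) (v : P) {W : C.Opens} (hW : IsAffineOpen W) (h₁ : p₁ v ∈ W)
    (h₂ : p₂ v ∈ W) :
    Coin p₁ p₂ v ↔ ∀ a, P.residue v (pg p₁ v W h₁ a) = P.residue v (pg p₂ v W h₂ a) := by
  rw [← eq_iff_pg p₁ p₂ v hW h₁ h₂]
  unfold Coin
  rw [Scheme.fromSpecResidueField, Category.assoc, Category.assoc]

theorem coin_comp_iff {Y : Scheme.{u}} (φ : Y ⟶ P) (p₁ p₂ : P ⟶ C) (z : Y) :
    Coin (φ ≫ p₁) (φ ≫ p₂) z ↔ Coin p₁ p₂ (φ z) := by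
  constructor
  · intro h
    have he : p₁ (φ z) = p₂ (φ z) := h.eq
    obtain ⟨W, hW, hW₁, -⟩ := exists_isAffineOpen_mem_and_subset (X := C)
      (x := p₁ (φ z)) (U := ⊤) trivial
    have hW₂ : p₂ (φ z) ∈ W := he ▸ hW₁
    rw [coin_iff p₁ p₂ (φ z) hW hW₁ hW₂]
    rw [coin_iff (φ ≫ p₁) (φ ≫ p₂) z hW hW₁ hW₂] at h
    intro a
    have h1 := h a
    rw [pg_comp φ p₁ z W hW₁ hW₁, pg_comp φ p₂ z W hW₂ hW₂] at h1
    have h2 : ∀ b : P.presheaf.stalk (φ z),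
        Y.residue z (φ.stalkMap z b) = φ.residueFieldMap z (P.residue (φ z) b) := by
      intro b
      have := Scheme.residue_residueFieldMap φ z
      exact (congrArg (fun g => g.hom b) this).symm
    rw [h2, h2] at h1
    exact (φ.residueFieldMap z).hom.injective h1
  · intro h
    unfold Coin
    rw [← Scheme.Hom.SpecMap_residueFieldMap_fromSpecResidueField_assoc,
      ← Scheme.Hom.SpecMap_residueFieldMap_fromSpecResidueField_assoc, h]

/-- the ideal of the coincidence locus at `v` -/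
def J (p₁ p₂ : P ⟶ C) (v : P) : Ideal (P.presheaf.stalk v) :=
  Ideal.span {t | ∃ (W : C.Opens) (_ : IsAffineOpen W) (h₁ : p₁ v ∈ W) (h₂ : p₂ v ∈ W)
    (a : Γ(C, W)), t = pg p₁ v W h₁ a - pg p₂ v W h₂ a}

/-- `t` is a local equation at `v` of the coincidence locus -/
structure Gens (p₁ p₂ : P ⟶ C) (v : P) (t : P.presheaf.stalk v) : Prop where
  off : ¬ Coin p₁ p₂ v → IsUnit t
  on : Coin p₁ p₂ v → Ideal.span {t} = J p₁ p₂ v

theorem Gens.exists_mul {p₁ p₂ : P ⟶ C} {v : P} {t t' : P.presheaf.stalk v}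
    (h : Gens p₁ p₂ v t) (h' : Gens p₁ p₂ v t') : ∃ a, t = a * t' := by
  by_cases hc : Coin p₁ p₂ v
  · have h1 : t ∈ Ideal.span {t'} := by
      rw [h'.on hc, ← h.on hc]; exact Ideal.mem_span_singleton_self t
    obtain ⟨a, ha⟩ := Ideal.mem_span_singleton'.mp h1
    exact ⟨a, ha.symm⟩
  · obtain ⟨u, hu⟩ := h'.off hc
    exact ⟨t * ((u⁻¹ : (P.presheaf.stalk v)ˣ) : P.presheaf.stalk v), by rw [← hu]; simp [mul_assoc]⟩

theorem Gens.comp {Y : Scheme.{u}} (φ : Y ⟶ P) {p₁ p₂ : P ⟶ C} {z : Y}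
    {t : P.presheaf.stalk (φ z)} (h : Gens p₁ p₂ (φ z) t) :
    Gens (φ ≫ p₁) (φ ≫ p₂) z (φ.stalkMap z t) where
  off hc := (h.off fun hc' => hc ((coin_comp_iff φ p₁ p₂ z).mpr hc')).map (φ.stalkMap z).hom
  on hc := by
    have h1 := h.on ((coin_comp_iff φ p₁ p₂ z).mp hc)
    have h2 : Ideal.span {φ.stalkMap z t} = (Ideal.span {t}).map (φ.stalkMap z).hom := by
      rw [Ideal.map_span, Set.image_singleton]
    rw [h2, h1, J, J, Ideal.map_span]
    refine congrArg Ideal.span (Set.ext fun s => ?_)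
    constructor
    · rintro ⟨_, ⟨W, hW, h₁, h₂, a, rfl⟩, rfl⟩
      refine ⟨W, hW, h₁, h₂, a, ?_⟩
      rw [pg_comp φ p₁ z W h₁ h₁, pg_comp φ p₂ z W h₂ h₂]
      exact map_sub (φ.stalkMap z).hom _ _
    · rintro ⟨W, hW, h₁, h₂, a, rfl⟩
      refine ⟨_, ⟨W, hW, h₁, h₂, a, rfl⟩, ?_⟩
      rw [pg_comp φ p₁ z W h₁ h₁, pg_comp φ p₂ z W h₂ h₂]
      exact map_sub (φ.stalkMap z).hom _ _

end Fermat.Agent.JM

end
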