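import Fermat.Agent.AVC.Final
import Fermat.Agent.JM.Cart

set_option autoImplicit false

/-! S25 block M: points and local rings of a smooth integral curve over a field. -/

noncomputable section

universe u

open CategoryTheory CategoryTheory.Limits AlgebraicGeometry TopologicalSpace
open Fermat.Agent.AVS

namespace Fermat.Agent.JM

variable {K : Type u} [Field K] {Y : Scheme.{u}} (f : Y ⟶ Spec (CommRingCat.of K))

theorem trdeg_zero_of_ne [SmoothOfRelativeDimension 1 f] [IsIntegral Y] (ξ : Y)
    (h : ξ ≠ genericPoint Y) :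
    letI := (kRes f ξ).toAlgebra; Algebra.trdeg K (Y.residueField ξ) = 0 := by
  letI := (kRes f ξ).toAlgebra
  have hI := Fermat.Agent.AVC.input f 1
  have h1 := hI.trdeg_le ξ
  have h2 : Algebra.trdeg K (Y.residueField ξ) ≠ 1 := fun h3 => h (hI.trdeg_eq ξ (by
    simpa using h3))
  have h4 : Algebra.trdeg K (Y.residueField ξ) < 1 :=
    lt_of_le_of_ne (by simpa using h1) h2
  exact Cardinal.lt_one_iff.mp h4

theorem isClosed_of_ne_generic [SmoothOfRelativeDimension 1 f] [IsIntegral Y] (ξ : Y)
    (h : ξ ≠ genericPoint Y) : IsClosed ({ξ} : Set Y) := by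
  have : Smooth f := SmoothOfRelativeDimension.smooth 1 f
  have : JacobsonSpace Y := LocallyOfFiniteType.jacobsonSpace f
  rw [isClosed_singleton_iff_locallyOfFiniteType]
  letI := (kRes f ξ).toAlgebra
  have hI := Fermat.Agent.AVC.input f 1
  have h0 := trdeg_zero_of_ne f ξ h
  have h1 : Algebra.IsAlgebraic K (Y.residueField ξ) := trdeg_eq_zero_iff.mp h0
  have h2 : Algebra.EssFiniteType K (Y.residueField ξ) := hI.fg ξ
  have h3 : Module.Finite K (Y.residueField ξ) := by
    obtain ⟨S, hS⟩ := IntermediateField.fg_top K (Y.residueField ξ)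
    have h4 : FiniteDimensional K (IntermediateField.adjoin K (S : Set (Y.residueField ξ))) :=
      IntermediateField.finiteDimensional_adjoin fun x _ =>
        (Algebra.IsAlgebraic.isAlgebraic x).isIntegral
    rw [hS] at h4
    exact Module.Finite.equiv IntermediateField.topEquiv.toLinearEquiv
  have h5 : LocallyOfFiniteType (Y.fromSpecResidueField ξ ≫ f) := by
    have h6 : Y.fromSpecResidueField ξ ≫ f = Spec.map (CommRingCat.ofHom (kRes f ξ)) := (resPt f ξ).2
    rw [h6]
    rw [HasRingHomProperty.Spec_iff (P := @LocallyOfFiniteType)]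
    exact RingHom.FiniteType.of_finite (show (kRes f ξ).Finite from h3)
  exact locallyOfFiniteType_of_comp (Y.fromSpecResidueField ξ) f

theorem valuationRing_stalk [SmoothOfRelativeDimension 1 f] [IsIntegral Y] (ξ : Y) :
    ValuationRing (Y.presheaf.stalk ξ) := by
  have hI := Fermat.Agent.AVC.input f 1
  exact hI.val ξ (by simp)

/-- A closed subset of a Noetherian scheme all of whose points are closed is finite. -/
theorem finite_of_isClosed {Z : Set Y} [IsNoetherian Y] (hZ : IsClosed Z)
    (h : ∀ z ∈ Z, IsClosed ({z} : Set Y)) : Z.Finite := by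
  have hN : NoetherianSpace Y := inferInstance
  obtain ⟨S, hSf, hSc, hSi, hSu⟩ := hN.exists_finite_set_isClosed_irreducible hZ
  rw [hSu]
  refine Set.Finite.sUnion hSf fun t ht => ?_
  obtain ⟨x, hx⟩ := QuasiSober.sober (hSi t ht) (hSc t ht)
  have hxt : x ∈ t := hx.mem
  have hxZ : x ∈ Z := by rw [hSu]; exact ⟨t, ht, hxt⟩
  have h2 : t = {x} := by
    rw [← hx.def, (h x hxZ).closure_eq]
  rw [h2]
  exact Set.finite_singleton x

/-- the support of Cartier data on a curve is finite -/
theorem finite_supp [SmoothOfRelativeDimension 1 f] [IsIntegral Y] [CompactSpace Y] (D : CD Y) :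
    D.supp.Finite := by
  have : Smooth f := SmoothOfRelativeDimension.smooth 1 f
  have hLN : IsLocallyNoetherian Y := LocallyOfFiniteType.isLocallyNoetherian f
  have hN : IsNoetherian Y := {}
  have hcov : (Set.univ : Set Y) ⊆ ⋃ x, (D.U x : Set Y) := fun x _ =>
    Set.mem_iUnion.mpr ⟨x, D.mem x⟩
  obtain ⟨T, hT⟩ := isCompact_univ.elim_finite_subcover (fun x => (D.U x : Set Y))
    (fun x => (D.U x).isOpen) hcov
  have h1 : D.supp ⊆ ⋃ x ∈ T, {z | ¬ UAt z (D.f x)} := by
    intro z hz
    obtain ⟨x, hx⟩ := Set.mem_iUnion.mp (hT (Set.mem_univ z))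
    obtain ⟨hxT, hzx⟩ := Set.mem_iUnion.mp hx
    refine Set.mem_iUnion₂.mpr ⟨x, hxT, fun h => hz ((D.uAt_iff hzx).mp h)⟩
  refine (Set.Finite.biUnion T.finite_toSet fun x _ => ?_).subset h1
  obtain ⟨W, hW, hWu⟩ := exists_open_uAt (D.ne x)
  have h2 : {z | ¬ UAt z (D.f x)} ⊆ (W : Set Y)ᶜ := fun z hz hzW => hz (hWu z hzW)
  refine (finite_of_isClosed W.isOpen.isClosed_compl fun z hz => ?_).subset h2
  exact isClosed_of_ne_generic f z fun h => hz (h ▸ hW)

end Fermat.Agent.JM

end
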