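import Mathlib

set_option autoImplicit false

universe u

open CategoryTheory CategoryTheory.Limits AlgebraicGeometry IsLocalRing

namespace Fermat.Agent.JM

/-- If `R` is a valuation ring with fraction field `K`, `A ⊇ R` a local overring inside a field
`K' ⊇ K` (local homomorphism), then `A ∩ K = R`. -/
theorem mem_range_of_mem {R K K' : Type*} [CommRing R] [IsDomain R] [ValuationRing R] [Field K]
    [Algebra R K] [IsFractionRing R K] [Field K'] (φ : K →+* K') (A : ValuationSubring K')
    (hA : ∀ r : R, φ (algebraMap R K r) ∈ A)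
    (hloc : ∀ r : R, IsUnit (⟨_, hA r⟩ : A) → IsUnit r) (z : K) (hz : φ z ∈ A) :
    z ∈ (algebraMap R K).range := by
  rcases ValuationRing.isInteger_or_isInteger R z with h | ⟨r, hr⟩
  · exact h
  · by_cases hz0 : z = 0
    · exact ⟨0, by simp [hz0]⟩
    have hu : IsUnit (⟨_, hA r⟩ : A) := by
      refine IsUnit.of_mul_eq_one ⟨φ z, hz⟩ ?_
      apply Subtype.ext
      show φ (algebraMap R K r) * φ z = 1
      rw [← map_mul, hr, inv_mul_cancel₀ hz0, map_one]
    obtain ⟨u, hu'⟩ := hloc r hu
    refine ⟨((u⁻¹ : Rˣ) : R), ?_⟩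
    have h1 : algebraMap R K ((u⁻¹ : Rˣ) : R) * algebraMap R K r = 1 := by
      rw [← map_mul, ← hu', Units.inv_mul, map_one]
    rw [hr] at h1
    have := congrArg (· * z) h1
    simpa [mul_assoc, inv_mul_cancel₀ hz0] using this

/-- The existence part of the valuative criterion for a morphism with affine target may be
checked for valuation rings with algebraically closed fraction field. -/
theorem existence_of_isAlgClosed {X Y : Scheme.{u}} [IsAffine Y] (f : X ⟶ Y)
    (H : ∀ S : ValuativeCommSq f, IsAlgClosed S.K → S.commSq.HasLift) :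
    ValuativeCriterion.Existence f := by
  intro S
  let K' := AlgebraicClosure S.K
  let φ : S.R →+* K' := (algebraMap S.K K').comp (algebraMap S.R S.K)
  obtain ⟨A, hA, hAloc⟩ := IsLocalRing.exists_factor_valuationRing φ
  have hw : (Spec.map (CommRingCat.ofHom (algebraMap S.K K')) ≫ S.i₁) ≫ f =
      Spec.map (CommRingCat.ofHom (algebraMap A K')) ≫
        Spec.map (CommRingCat.ofHom (φ.codRestrict A.toSubring hA)) ≫ S.i₂ := by
    rw [Category.assoc, S.commSq.w, ← Category.assoc, ← Category.assoc, ← Spec.map_comp,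
      ← Spec.map_comp]
    rfl
  let S' : ValuativeCommSq f :=
    { R := A, K := K', i₁ := Spec.map (CommRingCat.ofHom (algebraMap S.K K')) ≫ S.i₁,
      i₂ := Spec.map (CommRingCat.ofHom (φ.codRestrict A.toSubring hA)) ≫ S.i₂, commSq := ⟨hw⟩ }
  obtain ⟨l', hl₁, hl₂⟩ := (H S' (inferInstanceAs (IsAlgClosed K'))).exists_lift
  change Spec (.of A) ⟶ X at l'
  change Spec.map (CommRingCat.ofHom (algebraMap A K')) ≫ l' =
    Spec.map (CommRingCat.ofHom (algebraMap S.K K')) ≫ S.i₁ at hl₁
  obtain ⟨W, hW, hxW, -⟩ := exists_isAffineOpen_mem_and_subset (X := X)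
    (x := l' (closedPoint A)) (U := ⊤) trivial
  have htop : l' ⁻¹ᵁ W = ⊤ := (closedPoint_mem_iff _).mp hxW
  have hr : Set.range l' ⊆ Set.range W.ι := by
    rintro _ ⟨y, rfl⟩
    have : y ∈ l' ⁻¹ᵁ W := by rw [htop]; trivial
    simpa using this
  have hr1 : Set.range S.i₁ ⊆ Set.range W.ι := by
    rintro _ ⟨y, rfl⟩
    have hs : Function.Surjective (Spec.map (CommRingCat.ofHom (algebraMap S.K K'))) := by
      have : Surjective (Spec.map (CommRingCat.ofHom (algebraMap S.K K'))) := inferInstance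
      exact this.surj
    obtain ⟨y', rfl⟩ := hs y
    apply hr
    refine ⟨Spec.map (CommRingCat.ofHom (algebraMap A K')) y', ?_⟩
    rw [← Scheme.Hom.comp_apply, hl₁, Scheme.Hom.comp_apply]
  let a : Spec (.of A) ⟶ (W : Scheme) := IsOpenImmersion.lift W.ι l' hr
  let b : Spec (.of S.K) ⟶ (W : Scheme) := IsOpenImmersion.lift W.ι S.i₁ hr1
  have ha : a ≫ W.ι = l' := IsOpenImmersion.lift_fac _ _ _
  have hb : b ≫ W.ι = S.i₁ := IsOpenImmersion.lift_fac _ _ _
  obtain ⟨α, hα⟩ := Spec.map_surjective (a ≫ hW.isoSpec.hom)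
  obtain ⟨β, hβ⟩ := Spec.map_surjective (b ≫ hW.isoSpec.hom)
  have hαβ : ∀ d, ((α.hom d : A) : K') = algebraMap S.K K' (β.hom d) := by
    have h1 : Spec.map (α ≫ CommRingCat.ofHom (algebraMap A K')) =
        Spec.map (β ≫ CommRingCat.ofHom (algebraMap S.K K')) := by
      rw [Spec.map_comp, Spec.map_comp, hα, hβ, ← Category.assoc, ← Category.assoc]
      congr 1
      rw [← cancel_mono W.ι, Category.assoc, Category.assoc, ha, hb, hl₁]
    have h2 := Spec.map_injective h1
    intro d
    exact congrArg (fun g => g.hom d) h2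
  have hrange : ∀ d, β.hom d ∈ (algebraMap S.R S.K).range := by
    intro d
    refine mem_range_of_mem (algebraMap S.K K') A hA ?_ _ ?_
    · intro r hr
      exact hAloc.map_nonunit r hr
    · rw [← hαβ]
      exact (α.hom d).2
  let e : S.R ≃+* (algebraMap S.R S.K).range :=
    RingEquiv.ofBijective (algebraMap S.R S.K).rangeRestrict
      ⟨fun x y h => IsFractionRing.injective S.R S.K (congrArg Subtype.val h),
        (algebraMap S.R S.K).rangeRestrict_surjective⟩
  let γ : Γ(X, W) →+* S.R := e.symm.toRingHom.comp (β.hom.codRestrict _ hrange)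
  have hγ : ∀ d, algebraMap S.R S.K (γ d) = β.hom d := by
    intro d
    have : e (γ d) = ⟨β.hom d, hrange d⟩ := e.apply_symm_apply _
    exact congrArg Subtype.val this
  let l : Spec (.of S.R) ⟶ X := Spec.map (CommRingCat.ofHom γ) ≫ hW.isoSpec.inv ≫ W.ι
  have hl : Spec.map (CommRingCat.ofHom (algebraMap S.R S.K)) ≫ l = S.i₁ := by
    have h3 : CommRingCat.ofHom γ ≫ CommRingCat.ofHom (algebraMap S.R S.K) = β := by
      ext d
      exact hγ d
    show Spec.map (CommRingCat.ofHom (algebraMap S.R S.K)) ≫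
      Spec.map (CommRingCat.ofHom γ) ≫ hW.isoSpec.inv ≫ W.ι = S.i₁
    rw [← Category.assoc, ← Spec.map_comp, h3, hβ, Category.assoc, Iso.hom_inv_id_assoc, hb]
  refine ⟨⟨⟨l, hl, ?_⟩⟩⟩
  have : IsDominant (Spec.map (CommRingCat.ofHom (algebraMap S.R S.K))) := by
    refine ⟨?_⟩
    change DenseRange (PrimeSpectrum.comap (algebraMap S.R S.K))
    rw [PrimeSpectrum.denseRange_comap_iff_ker_le_nilRadical,
      (RingHom.injective_iff_ker_eq_bot _).mp (IsFractionRing.injective S.R S.K)]
    exact bot_le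
  have : IsReduced (Spec (.of S.R)) := inferInstance
  refine ext_of_isDominant (Spec.map (CommRingCat.ofHom (algebraMap S.R S.K))) ?_
  rw [← Category.assoc, hl]
  exact S.commSq.w

end Fermat.Agent.JM
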