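import Fermat.Agent.JM.Curve

set_option autoImplicit false

/-! S25 block M: Cartier data on a curve are generated by points. -/

noncomputable section

universe u

open CategoryTheory CategoryTheory.Limits AlgebraicGeometry TopologicalSpace
open Fermat.Agent.AVS

namespace Fermat.Agent.JM

section

variable {X : Scheme.{u}} [IsIntegral X]

theorem exists_zpow (z : X) [ValuationRing (X.presheaf.stalk z)]
    [IsNoetherianRing (X.presheaf.stalk z)] (π : X.presheaf.stalk z) (hπ : Irreducible π)
    {r : X.functionField} (hr : r ≠ 0) :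
    ∃ n : ℤ, UAt z (r * (algebraMap (X.presheaf.stalk z) X.functionField π) ^ n) := by
  have hpid : IsPrincipalIdealRing (X.presheaf.stalk z) := inferInstance
  have hdvr : IsDiscreteValuationRing (X.presheaf.stalk z) :=
    { not_a_field' := fun h => by
        have h1 : π ∈ IsLocalRing.maximalIdeal (X.presheaf.stalk z) := hπ.not_isUnit
        rw [h] at h1
        exact hπ.ne_zero h1 }
  obtain ⟨a, b, hb, rfl⟩ := IsFractionRing.div_surjective (A := X.presheaf.stalk z) r
  have hinj : Function.Injective (algebraMap (X.presheaf.stalk z) X.functionField) :=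
    IsFractionRing.injective _ _
  have hπ0 : algebraMap (X.presheaf.stalk z) X.functionField π ≠ 0 := by
    rw [Ne, map_eq_zero_iff _ hinj]
    exact hπ.ne_zero
  have hb0 : b ≠ 0 := nonZeroDivisors.ne_zero hb
  have ha0 : a ≠ 0 := by
    rintro rfl
    exact hr (by simp)
  obtain ⟨m, u, rfl⟩ := IsDiscreteValuationRing.eq_unit_mul_pow_irreducible ha0 hπ
  obtain ⟨n, v, rfl⟩ := IsDiscreteValuationRing.eq_unit_mul_pow_irreducible hb0 hπ
  refine ⟨(n : ℤ) - m, u * v⁻¹, ?_⟩
  have hv : algebraMap (X.presheaf.stalk z) X.functionField ((v⁻¹ : (X.presheaf.stalk z)ˣ) : X.presheaf.stalk z) =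
      (algebraMap (X.presheaf.stalk z) X.functionField (v : X.presheaf.stalk z))⁻¹ := by
    refine eq_inv_of_mul_eq_one_left ?_
    rw [← map_mul, Units.inv_mul, map_one]
  have hv0 : algebraMap (X.presheaf.stalk z) X.functionField (v : X.presheaf.stalk z) ≠ 0 :=
    (v.isUnit.map (algebraMap (X.presheaf.stalk z) X.functionField)).ne_zero
  rw [Units.val_mul, map_mul, hv, map_mul, map_mul, map_pow, map_pow, zpow_sub₀ hπ0,
    zpow_natCast, zpow_natCast]
  field_simp

/-- a point-like Cartier datum at `ξ`: unit away from `ξ`, uniformizer at `ξ`. -/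
structure CD.IsPoint (E : CD X) (ξ : X) : Prop where
  away : ∀ z, z ≠ ξ → UAt z (E.f z)
  at_ : ∃ π : X.presheaf.stalk ξ, Irreducible π ∧
    algebraMap (X.presheaf.stalk ξ) X.functionField π = E.f ξ

end

variable {K : Type u} [Field K] {Y : Scheme.{u}} (f : Y ⟶ Spec (CommRingCat.of K))

theorem supp_step [SmoothOfRelativeDimension 1 f] [IsIntegral Y] [CompactSpace Y] (D : CD Y)
    (ξ : Y) (hξ : ξ ∈ D.supp) (E : CD Y) (hE : E.IsPoint ξ) :
    ∃ n : ℤ, (D.mul (E.zpow n)).supp ⊆ D.supp \ {ξ} := by
  have : Smooth f := SmoothOfRelativeDimension.smooth 1 f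
  have hLN : IsLocallyNoetherian Y := LocallyOfFiniteType.isLocallyNoetherian f
  have : ValuationRing (Y.presheaf.stalk ξ) := valuationRing_stalk f ξ
  obtain ⟨π, hπ, hπE⟩ := hE.at_
  obtain ⟨n, hn⟩ := exists_zpow ξ π hπ (D.ne ξ)
  refine ⟨n, fun z hz => ?_⟩
  have h1 : z ≠ ξ := by
    rintro rfl
    apply hz
    show UAt z (D.f z * E.f z ^ n)
    rwa [← hπE]
  refine ⟨fun hD => hz ?_, h1⟩
  show UAt z (D.f z * E.f z ^ n)
  exact hD.mul ((hE.away z h1).zpow n)

/-- Every class of Cartier data is generated by the point classes. -/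
theorem mem_closure_of_points [SmoothOfRelativeDimension 1 f] [IsIntegral Y] [CompactSpace Y]
    {H : Type*} [CommGroup H] (cls : CD Y → H)
    (hmul : ∀ D E : CD Y, cls (D.mul E) = cls D * cls E)
    (hzpow : ∀ (D : CD Y) (n : ℤ), cls (D.zpow n) = cls D ^ n)
    (hone : ∀ D : CD Y, (∀ z, UAt z (D.f z)) → cls D = 1)
    (G : Subgroup H)
    (hG : ∀ ξ : Y, IsClosed ({ξ} : Set Y) → ∃ E : CD Y, E.IsPoint ξ ∧ cls E ∈ G) (D : CD Y) :
    cls D ∈ G := by
  have hfin := finite_supp f D
  induction hn : hfin.toFinset.card using Nat.strong_induction_on generalizing D with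
  | _ n ih =>
    by_cases hemp : D.supp = ∅
    · rw [hone D fun z => by_contra fun h => by
        have : z ∈ D.supp := h
        rw [hemp] at this
        exact this]
      exact G.one_mem
    · obtain ⟨ξ, hξ⟩ := Set.nonempty_iff_ne_empty.mpr hemp
      have hcl : IsClosed ({ξ} : Set Y) := isClosed_of_ne_generic f ξ fun h => hξ (by
        subst h
        exact uAt_generic (D.ne _))
      obtain ⟨E, hE, hEG⟩ := hG ξ hcl
      obtain ⟨m, hm⟩ := supp_step f D ξ hξ E hE
      have hfin' := finite_supp f (D.mul (E.zpow m))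
      have hlt : hfin'.toFinset.card < n := by
        rw [← hn]
        refine Finset.card_lt_card ?_
        rw [Finset.ssubset_iff_subset_ne]
        refine ⟨fun z hz => ?_, fun h => ?_⟩
        · simp only [Set.Finite.mem_toFinset] at hz ⊢
          exact (hm hz).1
        · have : ξ ∈ hfin'.toFinset := by
            rw [h]; simpa using hξ
          simp only [Set.Finite.mem_toFinset] at this
          exact (hm this).2 rfl
      have h2 := ih _ hlt (D.mul (E.zpow m)) hfin' rfl
      rw [hmul, hzpow] at h2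
      exact (Subgroup.mul_mem_cancel_right G (G.zpow_mem hEG m)).mp h2

end Fermat.Agent.JM

end
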