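import Fermat.Agent.JM.Coin

set_option autoImplicit false

/-! S25 block M: existence of local equations of the coincidence locus. -/

noncomputable section

universe u

open CategoryTheory CategoryTheory.Limits AlgebraicGeometry TopologicalSpace
open Fermat.Agent.AVS TensorProduct

namespace Fermat.Agent.JM

variable {P C : Scheme.{u}}

/-- the coincidence locus is closed -/
theorem isClosed_coin [C.IsSeparated] (p₁ p₂ : P ⟶ C) : IsClosed {v : P | Coin p₁ p₂ v} := by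
  have hcl : IsClosedImmersion (equalizer.ι p₁ p₂) := inferInstance
  have h : {v : P | Coin p₁ p₂ v} = Set.range (equalizer.ι p₁ p₂) := by
    ext v
    constructor
    · intro hv
      let l : Spec (P.residueField v) ⟶ equalizer p₁ p₂ :=
        equalizer.lift (P.fromSpecResidueField v) hv
      let x : Spec (P.residueField v) := IsLocalRing.closedPoint (P.residueField v)
      have hl : l ≫ equalizer.ι p₁ p₂ = P.fromSpecResidueField v := equalizer.lift_ι _ _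
      refine ⟨l x, ?_⟩
      rw [← Scheme.Hom.comp_apply, hl, Scheme.fromSpecResidueField_apply]
    · rintro ⟨e, rfl⟩
      show Coin p₁ p₂ (equalizer.ι p₁ p₂ e)
      rw [← coin_comp_iff, equalizer.condition]
      rfl
  rw [h]
  exact (equalizer.ι p₁ p₂).isClosedEmbedding.isClosed_range

section

variable {k : Type u} [Field k] (c : C ⟶ Spec (CommRingCat.of k))

theorem kSec_appLE {p : P ⟶ C} (W : C.Opens) (V : P.Opens) (e : V ≤ p ⁻¹ᵁ W) (r : k) :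
    (p.appLE W V e).hom (kSec c W r) = kSec (p ≫ c) V r := by
  have h : (Scheme.ΓSpecIso (CommRingCat.of k)).inv ≫ c.appTop ≫
      C.presheaf.map (homOfLE le_top).op ≫ p.appLE W V e =
      (Scheme.ΓSpecIso (CommRingCat.of k)).inv ≫ (p ≫ c).appTop ≫
        P.presheaf.map (homOfLE le_top).op := by
    rw [Scheme.Hom.map_appLE, Scheme.Hom.comp_appTop, Category.assoc]
    rfl
  exact congrArg (fun g => g.hom r) h

theorem pg_eq_germ_appLE (p : P ⟶ C) (W : C.Opens) (V : P.Opens) (e : V ≤ p ⁻¹ᵁ W) (v : P)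
    (hv : v ∈ V) (h : p v ∈ W) (a : Γ(C, W)) :
    P.presheaf.germ V v hv (p.appLE W V e a) = pg p v W h a := by
  rw [pg_eq_germ]
  exact P.presheaf.germ_res_apply (homOfLE e) v hv (p.app W a)

theorem exists_frac {W : C.Opens} (hW : IsAffineOpen W) {x : C} (hx : x ∈ W)
    (t : C.presheaf.stalk x) :
    ∃ α β : Γ(C, W), IsUnit (C.presheaf.germ W x hx β) ∧
      C.presheaf.germ W x hx β * t = C.presheaf.germ W x hx α := by
  let alg := C.presheaf.algebra_section_stalk ⟨x, hx⟩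
  have hloc := hW.isLocalization_stalk ⟨x, hx⟩
  obtain ⟨⟨α, β⟩, h⟩ := IsLocalization.surj (hW.primeIdealOf ⟨x, hx⟩).asIdeal.primeCompl t
  refine ⟨α, β, IsLocalization.map_units (C.presheaf.stalk x) β, ?_⟩
  rw [mul_comm]
  exact h

/-- existence of local equations near a coincidence point -/
theorem exists_gens_of_coin [SmoothOfRelativeDimension 1 c] (p₁ p₂ : P ⟶ C)
    (hp : p₁ ≫ c = p₂ ≫ c) (v : P) (hv : Coin p₁ p₂ v) :
    ∃ (U : P.Opens) (_ : v ∈ U) (s : Γ(P, U)), ∀ (w : P) (hw : w ∈ U),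
      Gens p₁ p₂ w (P.presheaf.germ U w hw s) := by
  obtain ⟨W, hW, hv₁, hstd⟩ := Fermat.Agent.AVC.exists_chart c 1 (p₁ v)
  have hv₂ : p₂ v ∈ W := hv.eq ▸ hv₁
  let W2 : P.Opens := p₁ ⁻¹ᵁ W ⊓ p₂ ⁻¹ᵁ W
  have e₁ : W2 ≤ p₁ ⁻¹ᵁ W := inf_le_left
  have e₂ : W2 ≤ p₂ ⁻¹ᵁ W := inf_le_right
  let β₁' : Γ(C, W) →+* Γ(P, W2) := (p₁.appLE W W2 e₁).hom
  let β₂' : Γ(C, W) →+* Γ(P, W2) := (p₂.appLE W W2 e₂).hom
  let algW : Algebra k Γ(C, W) := (kSec c W).toAlgebra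
  let algP : Algebra k Γ(P, W2) := (kSec (p₁ ≫ c) W2).toAlgebra
  let β₁ : Γ(C, W) →ₐ[k] Γ(P, W2) := { β₁' with commutes' := fun r => kSec_appLE c W W2 e₁ r }
  have hc₂ : ∀ r : k, β₂' (kSec c W r) = kSec (p₁ ≫ c) W2 r := fun r => by
    have := kSec_appLE c W W2 e₂ r
    rw [← hp] at this
    exact this
  let β₂ : Γ(C, W) →ₐ[k] Γ(P, W2) := { β₂' with commutes' := hc₂ }
  let Ψ : Γ(C, W) ⊗[k] Γ(C, W) →ₐ[k] Γ(P, W2) := Algebra.TensorProduct.productMap β₁ β₂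
  have hnt : Nontrivial Γ(C, W) := by
    have : Nonempty W := ⟨⟨_, hv₁⟩⟩
    infer_instance
  have hstd' : Algebra.IsStandardSmoothOfRelativeDimension 1 k Γ(C, W) := hstd
  have hstd'' : Algebra.IsStandardSmooth k Γ(C, W) := hstd'.isStandardSmooth 1
  have hrank : Module.rank Γ(C, W) (Ω[Γ(C, W)⁄k]) = 1 := by
    simpa using Algebra.IsStandardSmoothOfRelativeDimension.rank_kaehlerDifferential
      (R := k) (S := Γ(C, W)) 1
  obtain ⟨φ⟩ := nonempty_linearEquiv_of_rank_eq (R := Γ(C, W)) (M := Ω[Γ(C, W)⁄k])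
    (M₁ := Γ(C, W)) (by rw [hrank, Module.rank_self])
  -- germs
  have g₁ : ∀ (w : P) (hw : w ∈ W2) (h : p₁ w ∈ W) (a : Γ(C, W)),
      P.presheaf.germ W2 w hw (β₁ a) = pg p₁ w W h a :=
    fun w hw h a => pg_eq_germ_appLE p₁ W W2 e₁ w hw h a
  have g₂ : ∀ (w : P) (hw : w ∈ W2) (h : p₂ w ∈ W) (a : Γ(C, W)),
      P.presheaf.germ W2 w hw (β₂ a) = pg p₂ w W h a :=
    fun w hw h a => pg_eq_germ_appLE p₂ W W2 e₂ w hw h a
  have gΨ : ∀ (w : P) (hw : w ∈ W2) (h₁ : p₁ w ∈ W) (h₂ : p₂ w ∈ W) (a b : Γ(C, W)),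
      P.presheaf.germ W2 w hw (Ψ (a ⊗ₜ[k] b)) = pg p₁ w W h₁ a * pg p₂ w W h₂ b := by
    intro w hw h₁ h₂ a b
    rw [← g₁ w hw h₁, ← g₂ w hw h₂]
    exact map_mul (P.presheaf.germ W2 w hw).hom (β₁ a) (β₂ b)
  have hv2 : v ∈ W2 := ⟨hv₁, hv₂⟩
  -- the residue of `Ψ z` at `v`
  have hres : ∀ z : Γ(C, W) ⊗[k] Γ(C, W),
      P.residue v (P.presheaf.germ W2 v hv2 (Ψ z)) =
        P.residue v (pg p₁ v W hv₁ (Algebra.TensorProduct.lmul' k z)) := by
    intro z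
    induction z using TensorProduct.induction_on with
    | zero => simp
    | tmul a b =>
      rw [gΨ v hv2 hv₁ hv₂, Algebra.TensorProduct.lmul'_apply_tmul, map_mul, map_mul, map_mul,
        (coin_iff p₁ p₂ v hW hv₁ hv₂).mp hv b]
    | add a b ha hb => rw [map_add, map_add, map_add, map_add, map_add, map_add, ha, hb]
  let ρ : Γ(C, W) →+* P.residueField v := (P.residue v).hom.comp (pg p₁ v W hv₁)
  have hq : (RingHom.ker ρ).IsPrime := RingHom.ker_isPrime ρ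
  have hft : Algebra.FinitePresentation k Γ(C, W) := inferInstance
  have hess : Algebra.EssFiniteType k Γ(C, W) := inferInstance
  obtain ⟨x0, e, he, hex⟩ := exists_local_eq φ (RingHom.ker ρ)
  have hU : P.basicOpen (Ψ e) ≤ W2 := P.basicOpen_le _
  have hvU : v ∈ P.basicOpen (Ψ e) := by
    rw [P.mem_basicOpen (Ψ e) v hv2]
    by_contra hnu
    apply he
    have h1 : P.residue v (P.presheaf.germ W2 v hv2 (Ψ e)) = 0 := by
      have h0 : P.presheaf.germ W2 v hv2 (Ψ e) ∈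
          IsLocalRing.maximalIdeal (P.presheaf.stalk v) := hnu
      exact Ideal.Quotient.eq_zero_iff_mem.mpr h0
    rw [hres] at h1
    exact h1
  refine ⟨P.basicOpen (Ψ e), hvU,
    P.presheaf.map (homOfLE hU).op (Ψ ((1 : Γ(C, W)) ⊗ₜ[k] x0 - x0 ⊗ₜ[k] (1 : Γ(C, W)))),
    fun w hwU => ?_⟩
  have hw2 : w ∈ W2 := hU hwU
  have hw₁ : p₁ w ∈ W := hw2.1
  have hw₂ : p₂ w ∈ W := hw2.2
  have hd : ∀ a : Γ(C, W), P.presheaf.germ W2 w hw2
      (Ψ ((1 : Γ(C, W)) ⊗ₜ[k] a - a ⊗ₜ[k] (1 : Γ(C, W)))) =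
        pg p₂ w W hw₂ a - pg p₁ w W hw₁ a := by
    intro a
    rw [map_sub, map_sub, gΨ w hw2 hw₁ hw₂, gΨ w hw2 hw₁ hw₂]
    simp
  have hgs : P.presheaf.germ _ w hwU (P.presheaf.map (homOfLE hU).op
      (Ψ ((1 : Γ(C, W)) ⊗ₜ[k] x0 - x0 ⊗ₜ[k] (1 : Γ(C, W))))) =
        pg p₂ w W hw₂ x0 - pg p₁ w W hw₁ x0 := by
    rw [← hd x0]
    exact P.presheaf.germ_res_apply (homOfLE hU) w hwU _
  rw [hgs]
  have heu : IsUnit (P.presheaf.germ W2 w hw2 (Ψ e)) := (P.mem_basicOpen (Ψ e) w hw2).mp hwU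
  have hkey : ∀ a : Γ(C, W), pg p₂ w W hw₂ a - pg p₁ w W hw₁ a ∈
      Ideal.span {pg p₂ w W hw₂ x0 - pg p₁ w W hw₁ x0} := by
    intro a
    obtain ⟨b, hb⟩ := Ideal.mem_span_singleton'.mp
      (hex _ (KaehlerDifferential.one_smul_sub_smul_one_mem_ideal k a))
    have h1 := congrArg (fun z => P.presheaf.germ W2 w hw2 (Ψ z)) hb
    simp only [map_mul] at h1
    rw [hd, hd] at h1
    rw [← Ideal.unit_mul_mem_iff_mem _ heu, ← h1]
    exact Ideal.mul_mem_left _ _ (Ideal.mem_span_singleton_self _)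
  constructor
  · intro hnc
    by_contra hnu
    apply hnc
    rw [coin_iff p₁ p₂ w hW hw₁ hw₂]
    intro a
    have h1 : Ideal.span {pg p₂ w W hw₂ x0 - pg p₁ w W hw₁ x0} ≤
        IsLocalRing.maximalIdeal (P.presheaf.stalk w) := by
      rw [Ideal.span_singleton_le_iff_mem]
      exact hnu
    have h2 := h1 (hkey a)
    have h3 : P.residue w (pg p₂ w W hw₂ a - pg p₁ w W hw₁ a) = 0 :=
      Ideal.Quotient.eq_zero_iff_mem.mpr h2
    rw [map_sub, sub_eq_zero] at h3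
    exact h3.symm
  · intro hc
    apply le_antisymm
    · rw [Ideal.span_singleton_le_iff_mem, ← neg_sub, neg_mem_iff]
      exact Ideal.subset_span ⟨W, hW, hw₁, hw₂, x0, rfl⟩
    · refine Ideal.span_le.mpr ?_
      rintro _ ⟨W', hW', h₁, h₂, a, rfl⟩
      obtain ⟨α, β, hβ, hαβ⟩ := exists_frac hW hw₁ (C.presheaf.germ W' (p₁ w) h₁ a)
      have hE : ∀ (x' : C) (_ : x' = p₁ w) (hx : x' ∈ W) (hx' : x' ∈ W'),
          C.presheaf.germ W x' hx β * C.presheaf.germ W' x' hx' a = C.presheaf.germ W x' hx α ∧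
            IsUnit (C.presheaf.germ W x' hx β) := by
        rintro _ rfl hx hx'
        exact ⟨hαβ, hβ⟩
      obtain ⟨hE1, hU1⟩ := hE _ rfl hw₁ h₁
      obtain ⟨hE2, hU2⟩ := hE _ hc.eq.symm hw₂ h₂
      have hF1 : pg p₁ w W hw₁ β * pg p₁ w W' h₁ a = pg p₁ w W hw₁ α := by
        rw [pg_apply, pg_apply, pg_apply, ← hE1, map_mul]
      have hF2 : pg p₂ w W hw₂ β * pg p₂ w W' h₂ a = pg p₂ w W hw₂ α := by
        rw [pg_apply, pg_apply, pg_apply, ← hE2, map_mul]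
      have hV1 : IsUnit (pg p₁ w W hw₁ β) := hU1.map (p₁.stalkMap w).hom
      have hV2 : IsUnit (pg p₂ w W hw₂ β) := hU2.map (p₂.stalkMap w).hom
      show _ ∈ Ideal.span _
      rw [← Ideal.unit_mul_mem_iff_mem _ hV1, ← Ideal.unit_mul_mem_iff_mem _ hV2]
      have h5 : pg p₂ w W hw₂ β * (pg p₁ w W hw₁ β * (pg p₁ w W' h₁ a - pg p₂ w W' h₂ a)) =
          pg p₁ w W hw₁ α * (pg p₂ w W hw₂ β - pg p₁ w W hw₁ β) -
            pg p₁ w W hw₁ β * (pg p₂ w W hw₂ α - pg p₁ w W hw₁ α) := by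
        rw [← hF1, ← hF2]; ring
      rw [h5]
      exact Ideal.sub_mem _ (Ideal.mul_mem_left _ _ (hkey β)) (Ideal.mul_mem_left _ _ (hkey α))

/-- local equations of the coincidence locus exist -/
theorem exists_gens [SmoothOfRelativeDimension 1 c] [C.IsSeparated] (p₁ p₂ : P ⟶ C)
    (hp : p₁ ≫ c = p₂ ≫ c) (v : P) :
    ∃ (U : P.Opens) (_ : v ∈ U) (s : Γ(P, U)), ∀ (w : P) (hw : w ∈ U),
      Gens p₁ p₂ w (P.presheaf.germ U w hw s) := by
  by_cases hv : Coin p₁ p₂ v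
  · exact exists_gens_of_coin c p₁ p₂ hp v hv
  · refine ⟨⟨_, (isClosed_coin p₁ p₂).isOpen_compl⟩, hv, 1, fun w hw => ⟨fun _ => ?_, fun h => ?_⟩⟩
    · rw [map_one]; exact isUnit_one
    · exact absurd h hw

end

end Fermat.Agent.JM

end
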