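import Fermat.Agent.JM.Gen
import Fermat.Agent.JM.Local

set_option autoImplicit false

/-! S25 block M: rational points of a smooth integral curve over a field. -/

noncomputable section

universe u

open CategoryTheory CategoryTheory.Limits AlgebraicGeometry TopologicalSpace
open Fermat.Agent.AVS

namespace Fermat.Agent.JM

theorem eq_genericPoint_of_isField {Y : Scheme.{u}} [IsIntegral Y] (ξ : Y)
    (h : IsField (Y.presheaf.stalk ξ)) : ξ = genericPoint Y := by
  have h1 : genericPoint Y ∈ Set.range (Y.fromSpecStalk ξ) := by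
    rw [Scheme.range_fromSpecStalk]
    exact (genericPoint_spec Y).specializes trivial
  obtain ⟨w, hw⟩ := h1
  have h2 : w = IsLocalRing.closedPoint (Y.presheaf.stalk ξ) := by
    let _ := h.toField
    have : Subsingleton (PrimeSpectrum (Y.presheaf.stalk ξ)) :=
      (inferInstance : Unique (PrimeSpectrum (Y.presheaf.stalk ξ))).instSubsingleton
    exact Subsingleton.elim (α := PrimeSpectrum (Y.presheaf.stalk ξ)) _ _
  rw [← hw, h2, Scheme.fromSpecStalk_closedPoint]

variable {K : Type u} [Field K] {Y : Scheme.{u}} {f : Y ⟶ Spec (CommRingCat.of K)}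

theorem pt_comp (x : Pt f (RingHom.id K)) : x.1 ≫ f = 𝟙 _ :=
  x.2.trans (Spec.map_id _)

theorem center_ne_generic [SmoothOfRelativeDimension 1 f] [IsIntegral Y]
    (x : Pt f (RingHom.id K)) : center x ≠ genericPoint Y := by
  intro h
  have hI := Fermat.Agent.AVC.input f 1
  have hgen : ∀ ξ : Y, ξ = genericPoint Y →
      (letI := (kRes f ξ).toAlgebra; Algebra.trdeg K (Y.residueField ξ) = (1 : ℕ)) := by
    rintro _ rfl
    exact hI.trdeg_gen
  have h1 := hgen _ h
  let _ := (kRes f (center x)).toAlgebra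
  have hsurj : Function.Surjective (algebraMap K (Y.residueField (center x))) := by
    intro r
    refine ⟨resHom x r, ?_⟩
    apply (resHom x).injective
    have h2 : ∀ c : K, resHom x (kRes f (center x) c) = c := fun c =>
      congrArg (fun g : K →+* K => g c) (stalkHom_comp_kStalk x)
    exact h2 (resHom x r)
  have halg : Algebra.IsAlgebraic K (Y.residueField (center x)) := by
    refine ⟨fun r => ?_⟩
    obtain ⟨c, rfl⟩ := hsurj r
    exact isAlgebraic_algebraMap c
  have h3 : Algebra.trdeg K (Y.residueField (center x)) = 0 := trdeg_eq_zero_iff.mpr halg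
  have h4 : Algebra.trdeg K (Y.residueField (center x)) = (1 : ℕ) := h1
  rw [h3] at h4
  simp at h4

variable {C : Scheme.{u}} (q : Y ⟶ C)

theorem coin_center (x : Pt f (RingHom.id K)) : Coin q (f ≫ x.1 ≫ q) (center x) := by
  have h1 : Coin (x.1 ≫ q) (x.1 ≫ f ≫ x.1 ≫ q) (IsLocalRing.closedPoint K) := by
    have h2 : x.1 ≫ f ≫ x.1 ≫ q = x.1 ≫ q := by
      rw [← Category.assoc, pt_comp, Category.id_comp]
    rw [h2]
    rfl
  exact (coin_comp_iff x.1 q (f ≫ x.1 ≫ q) (IsLocalRing.closedPoint K)).mp h1

theorem eq_center_of_coin (hj : ∀ {Z : Scheme.{u}} (a b : Z ⟶ Y), a ≫ q = b ≫ q → a ≫ f = b ≫ f →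
    a = b) (x : Pt f (RingHom.id K)) (z : Y) (h : Coin q (f ≫ x.1 ≫ q) z) : z = center x := by
  have h1 : Y.fromSpecResidueField z = Y.fromSpecResidueField z ≫ f ≫ x.1 := by
    apply hj
    · rw [Category.assoc, Category.assoc]
      exact h
    · rw [Category.assoc, Category.assoc, pt_comp, Category.comp_id]
  let w : Spec (Y.residueField z) := IsLocalRing.closedPoint (Y.residueField z)
  have h2 : Y.fromSpecResidueField z w = z := Scheme.fromSpecResidueField_apply z w
  have h3 : (Y.fromSpecResidueField z ≫ f ≫ x.1) w = z := by rw [← h1]; exact h2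
  rw [← h3, Scheme.Hom.comp_apply, Scheme.Hom.comp_apply]
  exact congrArg x.1 (Subsingleton.elim (α := PrimeSpectrum K) _ _)

/-- the coincidence ideal at a rational point is the maximal ideal -/
theorem J_center (hj : ∀ {Z : Scheme.{u}} (a b : Z ⟶ Y), a ≫ q = b ≫ q → a ≫ f = b ≫ f →
    a = b) (x : Pt f (RingHom.id K)) :
    J q (f ≫ x.1 ≫ q) (center x) = IsLocalRing.maximalIdeal (Y.presheaf.stalk (center x)) := by
  have hc := coin_center q x
  apply le_antisymm
  · refine Ideal.span_le.mpr ?_
    rintro _ ⟨W, hW, h₁, h₂, a, rfl⟩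
    have h3 := (coin_iff q (f ≫ x.1 ≫ q) (center x) hW h₁ h₂).mp hc a
    refine Ideal.Quotient.eq_zero_iff_mem.mp ?_
    rw [map_sub]
    exact sub_eq_zero.mpr h3
  · intro m hm
    obtain ⟨W, hW, h₁, -⟩ := exists_isAffineOpen_mem_and_subset (X := C)
      (x := q (center x)) (U := ⊤) trivial
    have h₂ : (f ≫ x.1 ≫ q) (center x) ∈ W := hc.eq ▸ h₁
    let I := J q (f ≫ x.1 ≫ q) (center x)
    let π : Y.presheaf.stalk (center x) ⟶ CommRingCat.of (Y.presheaf.stalk (center x) ⧸ I) :=
      CommRingCat.ofHom (Ideal.Quotient.mk I)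
    have h4 := (eq_iff_pg q (f ≫ x.1 ≫ q) (center x) hW h₁ h₂ π).mpr (fun a => by
      refine sub_eq_zero.mp ?_
      rw [← map_sub]
      exact Ideal.Quotient.eq_zero_iff_mem.mpr (Ideal.subset_span ⟨W, hW, h₁, h₂, a, rfl⟩))
    have hxf := pt_comp x
    have h5 : Spec.map π ≫ Y.fromSpecStalk (center x) =
        (Spec.map π ≫ Y.fromSpecStalk (center x)) ≫ f ≫ x.1 := by
      apply hj
      · simpa only [Category.assoc] using h4
      · simp only [Category.assoc, hxf, Category.comp_id]
    have h6 : Y.fromSpecStalk (center x) ≫ f ≫ x.1 =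
        Spec.map (CommRingCat.ofHom (kStalk f (center x))) ≫
          Spec.map (CommRingCat.ofHom (stalkHom x)) ≫ Y.fromSpecStalk (center x) := by
      rw [specMap_stalkHom, ← Category.assoc, fromSpecStalk_comp]
    rw [Category.assoc, h6] at h5
    simp only [← Category.assoc] at h5
    have hmono : Mono (Y.fromSpecStalk (center x)) := inferInstance
    rw [cancel_mono, ← Spec.map_comp, ← Spec.map_comp, Spec.map_inj] at h5
    have h7 : π m = π (kStalk f (center x) (stalkHom x m)) :=
      congrArg (fun g => g.hom m) h5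
    have h8 : stalkHom x m = 0 := by
      by_contra hne
      have : IsUnit (stalkHom x m) := isUnit_iff_ne_zero.mpr hne
      exact hm (isUnit_of_map_unit (stalkHom x) m this)
    rw [h8, map_zero, map_zero] at h7
    exact Ideal.Quotient.eq_zero_iff_mem.mp h7

theorem irreducible_of_gens [SmoothOfRelativeDimension 1 f] [IsIntegral Y]
    (hj : ∀ {Z : Scheme.{u}} (a b : Z ⟶ Y), a ≫ q = b ≫ q → a ≫ f = b ≫ f →
    a = b) (x : Pt f (RingHom.id K)) (t : Y.presheaf.stalk (center x))
    (ht : Gens q (f ≫ x.1 ≫ q) (center x) t) : Irreducible t := by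
  have h1 : Ideal.span {t} = IsLocalRing.maximalIdeal (Y.presheaf.stalk (center x)) := by
    rw [ht.on (coin_center q x), J_center q hj x]
  have h2 : t ≠ 0 := by
    rintro rfl
    rw [Ideal.span_singleton_eq_bot.mpr rfl] at h1
    exact center_ne_generic x (eq_genericPoint_of_isField _
      (IsLocalRing.isField_iff_maximalIdeal_eq.mpr h1.symm))
  have h3 : Prime t := (Ideal.span_singleton_prime h2).mp (by rw [h1]; infer_instance)
  exact h3.irreducible

end Fermat.Agent.JM

end
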